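/-
S25lib / Iface  (helper7)  --  Project L (S25): the top-level interfaces.

Setting: `k` a field, `c : C ⟶ Spec k`, `ε` a `k`-point of `C` (the hypotheses of S25 are added where needed).
`RLB t` = rigidified line bundles on `C ×_k T`, `InP M` = the cut `algEquivZeroCut` (fibrewise algebraically
equivalent to zero), `RLB.Iso` = isomorphism of the underlying modules.

* `Rigid c ε`: an automorphism of a rigidified bundle which is the identity along the section is the identity
  (block `Hub/**`, from `Γ(C_R, O) = R`).
* `Chart c ε`: a `k`-scheme `V`, locally of finite type, with a bundle `univ` of the cut over it, which is an OPEN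
  SUBFUNCTOR of the Picard functor: the classifying map is unique (`mono`), and for every bundle `M` of the cut
  over `T` there is an open `locus t M ⊆ T` through which exactly those `ψ : T' ⟶ T` factor for which `ψ^* M`
  is a pullback of `univ` (`locus_iff`).
* `AffChart c ε`: the same with `T`, `T'` AFFINE only (this is what the chart analysis proves).
* `RigApp c`: `Γ(T, U) → Γ(C ×_k T, pr₂⁻¹ U)` is bijective for every open `U` of every `k`-scheme `T`.
* `ExtStatement` (block `Glue/**`): (RIG) extends an `AffChart` to a `Chart` (`AffChart.Extends`, `AffChart.toChart`).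
* `ChartCover c ε`: a family of charts, indexed by a `Type u`, such that every bundle of the cut over a FIELD is
  a pullback of one of the `univ`.
* `ChartCover.Cover2`: two bundles of the cut over a field lie in a common chart (block `Sep/**`).
* `RepStatement c ε` (block `Glue/**`): (RIG) + a chart cover give a designation `D` representing the cut,
  covered by open immersions of the charts which pull the Poincare bundle back to the `univ`.
-/
import Mathlib
import Fermat.Statements.S25

set_option autoImplicit false

noncomputable section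

universe u

open AlgebraicGeometry CategoryTheory CategoryTheory.Limits AlgebraicGeometry.RelPicard
  NeronModelInfra GoodReductionJacobian

namespace Fermat.Agent.S25lib

variable {k : Type u} [Field k] {C : Scheme.{u}} (c : C ⟶ Spec (CommRingCat.of k))
  (ε : SchemeHomOver (𝟙 (Spec (CommRingCat.of k))) c)

/-- rigidified line bundles on `C ×_k T` -/
abbrev RLB {T : Scheme.{u}} (t : T ⟶ Spec (CommRingCat.of k)) : Type (u + 1) :=
  RigidifiedLineBundle c ε t

variable {c ε}

/-- the cut: fibrewise algebraically equivalent to zero -/
abbrev InP {T : Scheme.{u}} {t : T ⟶ Spec (CommRingCat.of k)} (M : RLB c ε t) : Prop :=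
  FibrewiseAlgEquivZero M

/-- isomorphism of the underlying modules -/
abbrev RLB.Iso {T : Scheme.{u}} {t : T ⟶ Spec (CommRingCat.of k)} (M M' : RLB c ε t) : Prop :=
  Nonempty (M.L ≅ M'.L)

variable (c ε)

/-- **rigidity**: an automorphism of a rigidified bundle inducing the identity along the section is the
identity -/
def Rigid : Prop :=
  ∀ {T : Scheme.{u}} (t : T ⟶ Spec (CommRingCat.of k)) (M : RLB c ε t) (α : M.L ≅ M.L),
    (Scheme.Modules.pullback (rigSection c t ε)).map α.hom = 𝟙 _ → α.hom = 𝟙 _

/-- **(RIG)**: over every open `U` of a `k`-scheme `T` the functions on `C ×_k U` are those of `U`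
(helper9's `Polar.rig_app` under the S25 hypotheses) -/
def RigApp : Prop :=
  ∀ {T : Scheme.{u}} (t : T ⟶ Spec (CommRingCat.of k)) (U : T.Opens),
    Function.Bijective ((pullback.snd c t).app U)

/-- **a chart of the Picard functor**: an open subfunctor represented by `(V, univ)` -/
structure Chart where
  /-- the chart -/
  V : Scheme.{u}
  v : V ⟶ Spec (CommRingCat.of k)
  finiteType : LocallyOfFiniteType v
  /-- the universal bundle of the chart -/
  univ : RLB c ε v
  univ_mem : InP univ
  /-- the chart is a subfunctor: the classifying map is unique -/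
  mono : ∀ {T : Scheme.{u}} (t : T ⟶ Spec (CommRingCat.of k)) (g g' : SchemeHomOver t v),
    RLB.Iso (univ.pullbackAlong g) (univ.pullbackAlong g') → g = g'
  /-- the locus of `T` over which `M` belongs to the chart -/
  locus : ∀ {T : Scheme.{u}} (t : T ⟶ Spec (CommRingCat.of k)), RLB c ε t → T.Opens
  /-- the chart is an open subfunctor -/
  locus_iff : ∀ {T T' : Scheme.{u}} (t : T ⟶ Spec (CommRingCat.of k))
    (t' : T' ⟶ Spec (CommRingCat.of k)) (ψ : SchemeHomOver t' t) (M : RLB c ε t), InP M →
    ((∃ g : SchemeHomOver t' v, RLB.Iso (univ.pullbackAlong g) (M.pullbackAlong ψ)) ↔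
      Set.range ψ.1.base ⊆ (locus t M : Set T))

/-- **an affine-local chart**: as `Chart`, with all test schemes affine -/
structure AffChart where
  V : Scheme.{u}
  v : V ⟶ Spec (CommRingCat.of k)
  finiteType : LocallyOfFiniteType v
  univ : RLB c ε v
  univ_mem : InP univ
  mono : ∀ {T : Scheme.{u}} (_ : IsAffine T) (t : T ⟶ Spec (CommRingCat.of k))
    (g g' : SchemeHomOver t v),
    RLB.Iso (univ.pullbackAlong g) (univ.pullbackAlong g') → g = g'
  locus : ∀ {T : Scheme.{u}} (_ : IsAffine T) (t : T ⟶ Spec (CommRingCat.of k)), RLB c ε t → T.Opens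
  locus_iff : ∀ {T T' : Scheme.{u}} (hT : IsAffine T) (_ : IsAffine T')
    (t : T ⟶ Spec (CommRingCat.of k))
    (t' : T' ⟶ Spec (CommRingCat.of k)) (ψ : SchemeHomOver t' t) (M : RLB c ε t), InP M →
    ((∃ g : SchemeHomOver t' v, RLB.Iso (univ.pullbackAlong g) (M.pullbackAlong ψ)) ↔
      Set.range ψ.1.base ⊆ (locus hT t M : Set T))

/-- the extension of an affine-local chart to all test schemes -/
def AffChart.Extends (A : AffChart c ε) : Prop :=
  (∀ {T : Scheme.{u}} (t : T ⟶ Spec (CommRingCat.of k)) (g g' : SchemeHomOver t A.v),
    RLB.Iso (A.univ.pullbackAlong g) (A.univ.pullbackAlong g') → g = g') ∧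
  ∃ locus : ∀ {T : Scheme.{u}} (t : T ⟶ Spec (CommRingCat.of k)), RLB c ε t → T.Opens,
    ∀ {T T' : Scheme.{u}} (t : T ⟶ Spec (CommRingCat.of k))
      (t' : T' ⟶ Spec (CommRingCat.of k)) (ψ : SchemeHomOver t' t) (M : RLB c ε t), InP M →
      ((∃ g : SchemeHomOver t' A.v, RLB.Iso (A.univ.pullbackAlong g) (M.pullbackAlong ψ)) ↔
        Set.range ψ.1.base ⊆ (locus t M : Set T))

/-- **(Ext)** (block `Glue/**`): (RIG) extends every affine-local chart -/
def ExtStatement : Prop :=
  RigApp c → ∀ A : AffChart c ε, A.Extends

variable {c ε} in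
/-- the chart of an extended affine-local chart -/
def AffChart.toChart (A : AffChart c ε) (h : A.Extends) : Chart c ε where
  V := A.V
  v := A.v
  finiteType := A.finiteType
  univ := A.univ
  univ_mem := A.univ_mem
  mono := h.1
  locus := h.2.choose
  locus_iff := h.2.choose_spec

/-- **a cover of the Picard functor by charts**: every bundle of the cut over a field belongs to a chart -/
structure ChartCover where
  ι : Type u
  chart : ι → Chart c ε
  cover : ∀ (K : Type u) [Field K] (t : Spec (CommRingCat.of K) ⟶ Spec (CommRingCat.of k))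
    (M : RLB c ε t), InP M →
    ∃ i, ∃ g : SchemeHomOver t (chart i).v, RLB.Iso ((chart i).univ.pullbackAlong g) M

variable {c ε} in
/-- two bundles of the cut over a field lie in a common chart (for separatedness) -/
def ChartCover.Cover2 (A : ChartCover c ε) : Prop :=
  ∀ (K : Type u) [Field K] (t : Spec (CommRingCat.of K) ⟶ Spec (CommRingCat.of k))
    (M M' : RLB c ε t), InP M → InP M' →
    ∃ i, (∃ g : SchemeHomOver t (A.chart i).v, RLB.Iso ((A.chart i).univ.pullbackAlong g) M) ∧
      ∃ g' : SchemeHomOver t (A.chart i).v, RLB.Iso ((A.chart i).univ.pullbackAlong g') M'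

/-- **(Rep)**: (RIG) and a chart cover give a representing designation, covered by the charts -/
def RepStatement : Prop :=
  RigApp c → ∀ A : ChartCover c ε, ∃ (D : RelativePic0Designation k c)
    (h : RepresentsRelSubPic c ε (algEquivZeroCut c ε) D)
    (j : ∀ i, SchemeHomOver (A.chart i).v D.toBase),
    (∀ i, IsOpenImmersion (j i).1) ∧ (∀ x : D.P, ∃ i, x ∈ Set.range (j i).1.base) ∧
      ∀ i, RLB.Iso (h.poincare.pullbackAlong (j i)) (A.chart i).univ

/-- the S25 conclusion -/
def S25Statement : Prop :=
  ∃ D : RelativePic0Designation k c,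
    Nonempty (RepresentsRelSubPic c ε (algEquivZeroCut c ε) D) ∧
      Smooth D.toBase ∧ IsProper D.toBase ∧ GeometricallyConnected D.toBase

end Fermat.Agent.S25lib
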